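import Mathlib
import Fermat.Agent.S24.QRep
import Fermat.Agent.S24.QBridge
import Fermat.Agent.S48.B.B1.Wp.QExp
import Fermat.Agent.S48.B.Igusa.Full.Galois

/-!
# PROJECT D (S48), part B, block B2, brick (A): the analytic input of `FF_M` is a theorem

helper12's `Galois.Input M ι ζ` (= `Family.WpData M P` for the full family of division values +
`Family.WRep M`, the expansion of `E₄E₆/Δ`) holds for `P v = wpTors M r s`, `v = (r, s)`:

* `wRep M : Family.WRep M` (the `q`-expansion of `E₆` after helper23's `B1/FrickeRep`);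
* `wpData M : Family.WpData M (Pv M)` from brick W (`B1/Wp/{Tors, Holo, QExp}`);
* `input M ι ζ hζ : Galois.Input M ι ζ`.
-/

set_option autoImplicit false

open Complex Filter Topology

open UpperHalfPlane hiding I

open ModularForm EisensteinSeries CongruenceSubgroup Matrix.SpecialLinearGroup

open scoped MatrixGroups ModularForm Manifold

noncomputable section

namespace Fermat.Agent.S48.B.Igusa.Full.Analytic.WpInput

open Fermat.Agent.S24.QRep Fermat.Agent.LevelOne.JBasic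
open Fermat.Agent.S48.Eis1.KronZ Fermat.Agent.S48.Eis1.KronS Fermat.Agent.S48.Eis1.KronTors
open Fermat.Agent.S48.B.B1.Wp.Tors Fermat.Agent.S48.B.B1.Wp.Holo Fermat.Agent.S48.B.B1.Wp.QExp
open Fermat.Agent.S48.B.Igusa.Full.Defs Fermat.Agent.S48.B.Igusa.Full.Bridge
open Fermat.Agent.S48.B.Igusa.Full.Family
open Fermat.Agent.S48.B.Defs.Model ModularCurve

local notation "Δ" => ModularForm.discriminant
local notation "𝕢" => Function.Periodic.qParam

/-! ### The `q`-expansion of `E₄E₆/Δ` (after helper23's `B1/FrickeRep`) -/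

theorem bernoulli'_five : bernoulli' 5 = 0 := by
  have h1 : Nat.choose 5 2 = 10 := by decide
  have h2 : Nat.choose 5 3 = 10 := by decide
  have h3 : Nat.choose 5 4 = 5 := by decide
  rw [bernoulli'_def]
  norm_num [Finset.sum_range_succ, Finset.sum_range_zero, h1, h2, h3]

theorem bernoulli'_six : bernoulli' 6 = 1 / 42 := by
  have h1 : Nat.choose 6 2 = 15 := by decide
  have h2 : Nat.choose 6 3 = 20 := by decide
  have h3 : Nat.choose 6 4 = 15 := by decide
  have h4 : Nat.choose 6 5 = 6 := by decide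
  rw [bernoulli'_def]
  norm_num [Finset.sum_range_succ, Finset.sum_range_zero, h1, h2, h3, h4, bernoulli'_five]

theorem bernoulli_six : bernoulli 6 = 1 / 42 := by
  rw [bernoulli_eq_bernoulli'_of_ne_one (by norm_num), bernoulli'_six]

/-- The `q`-expansion of `E₆` is the formal series `eisenstein6`. -/
theorem qExpansion_E6 : qExpansion 1 E₆ = eisenstein6.map (Int.castRingHom ℂ) := by
  ext m
  rw [EisensteinSeries.E_qExpansion_coeff (by norm_num) ⟨3, rfl⟩ m, PowerSeries.coeff_map]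
  change _ = (Int.castRingHom ℂ) ((PowerSeries.mk fun n : ℕ =>
    if n = 0 then (1 : ℤ) else -504 * ∑ d ∈ n.divisors, (d : ℤ) ^ 5).coeff m)
  rw [PowerSeries.coeff_mk]
  split_ifs with h
  · simp
  · have hb : bernoulli 6 = 1 / 42 := bernoulli_six
    rw [hb]
    simp only [ArithmeticFunction.sigma_apply, eq_intCast]
    push_cast
    ring

/-- `E₄ E₆ q / Δ`, a holomorphic function of `q` with expansion `wNum` -/
def W1 (τ : ℍ) : ℂ := Wfun τ * 𝕢 1 τ

theorem W1_eq : W1 = ((⇑E₄) * (⇑E₆)) * Ufun := by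
  funext τ
  unfold W1 Wfun Ufun
  simp only [Pi.mul_apply]
  ring

theorem isQ_W1 : IsQ W1 := by
  rw [W1_eq]
  exact ((isQ_modularForm E₄).mul (isQ_modularForm E₆)).mul isQ_Ufun

theorem qExpansion_W1 : qExpansion 1 W1 = wNum.map (Int.castRingHom ℂ) := by
  change _ = (eisenstein4 * eisenstein6 * dedekindEtaUnitInv).map (Int.castRingHom ℂ)
  rw [W1_eq, ((isQ_modularForm E₄).mul (isQ_modularForm E₆)).qExpansion_mul isQ_Ufun,
    (isQ_modularForm E₄).qExpansion_mul (isQ_modularForm E₆),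
    Fermat.Agent.S24.QBridge.qExpansion_E4, qExpansion_E6, qExpansion_Ufun, map_mul, map_mul]

theorem wNorm_mul_single :
    wNorm ℂ * HahnSeries.single (1 : ℤ) (1 : ℂ) =
      HahnSeries.ofPowerSeries ℤ ℂ (wNum.map (Int.castRingHom ℂ)) := by
  unfold wNorm
  rw [mul_comm, ← mul_assoc, HahnSeries.single_mul_single]
  simp

theorem dil_Wfun_mul (d : ℕ) [NeZero d] (τ : ℍ) : dil d Wfun τ * 𝕢 1 τ ^ d = dil d W1 τ := by
  simp only [dil, W1, qParam_dil]

/-- **`τ ↦ (E₄E₆/Δ)(Mτ)` has the Laurent expansion `wNorm(q^M)`** -/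
theorem wRep (M : ℕ) [NeZero M] : WRep M := by
  have e : (fun τ : ℍ => dil M Wfun τ * 𝕢 1 τ ^ M) = dil M W1 := funext (dil_Wfun_mul M)
  refine ⟨M, ?_, ?_⟩
  · rw [e]
    exact isQ_W1.dil M
  · rw [e, ofPowerSeries_qExpansion_dil isQ_W1, qExpansion_W1, ← wNorm_mul_single, map_mul,
      qExpand_single, mul_one]

/-! ### The family of division values -/

section family

variable (M : ℕ) [NeZero M]

/-- the integer representative of the first coordinate -/
def rr (v : Vec M) : ℤ := (((v 0).val : ℕ) : ℤ)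

/-- the integer representative of the second coordinate -/
def ss (v : Vec M) : ℤ := (((v 1).val : ℕ) : ℤ)

theorem cast_rr (v : Vec M) : ((rr M v : ℤ) : ZMod M) = v 0 := by
  unfold rr
  rw [Int.cast_natCast, ZMod.natCast_zmod_val]

theorem cast_ss (v : Vec M) : ((ss M v : ℤ) : ZMod M) = v 1 := by
  unfold ss
  rw [Int.cast_natCast, ZMod.natCast_zmod_val]

theorem prim_of_ne_zero {v : Vec M} (hv : v ≠ 0) : Prim M (rr M v) (ss M v) := by
  intro h
  apply hv
  have h0 : v 0 = 0 := by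
    rw [← cast_rr M v]
    exact (ZMod.intCast_zmod_eq_zero_iff_dvd _ M).mpr h.1
  have h1 : v 1 = 0 := by
    rw [← cast_ss M v]
    exact (ZMod.intCast_zmod_eq_zero_iff_dvd _ M).mpr h.2
  funext i
  fin_cases i
  · exact h0
  · exact h1

/-- **the division values** `P_v(τ) = 12 (2πi)⁻² ℘((rτ+s)/M; ℤ+ℤτ)`, `v = (r, s)` -/
def Pv (v : Vec M) : ℍ → ℂ := wpTors M (rr M v) (ss M v)

omit [NeZero M] in
theorem red_apply (γ : SL(2, ℤ)) (i j : Fin 2) :
    (red M γ).1 i j = ((γ i j : ℤ) : ZMod M) := rfl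

omit [NeZero M] in
theorem vecMul_zero (v : Vec M) (γ : SL(2, ℤ)) :
    Matrix.vecMul v (red M γ).1 0 = v 0 * ((γ 0 0 : ℤ) : ZMod M) + v 1 * ((γ 1 0 : ℤ) : ZMod M) := by
  rw [Matrix.vecMul, dotProduct, Fin.sum_univ_two, red_apply, red_apply]

omit [NeZero M] in
theorem vecMul_one (v : Vec M) (γ : SL(2, ℤ)) :
    Matrix.vecMul v (red M γ).1 1 = v 0 * ((γ 0 1 : ℤ) : ZMod M) + v 1 * ((γ 1 1 : ℤ) : ZMod M) := by
  rw [Matrix.vecMul, dotProduct, Fin.sum_univ_two, red_apply, red_apply]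

/-- **the transformation law**: `P_v (γ τ) = j(γ, τ)² P_{v γ} (τ)` -/
theorem Pv_smul {v : Vec M} (hv : v ≠ 0) (γ : SL(2, ℤ)) (τ : ℍ) :
    Pv M v (γ • τ) =
      denom (γ : GL (Fin 2) ℝ) τ ^ (2 : ℤ) * Pv M (Matrix.vecMul v (red M γ).1) τ := by
  have hM : M ≠ 0 := NeZero.ne M
  have hP := prim_of_ne_zero M hv
  have hd : denom (γ : GL (Fin 2) ℝ) τ ≠ 0 := denom_ne_zero _ τ
  have h1 := congrFun (wpTors_slash hM hP γ) τ
  rw [ModularForm.SL_slash_apply] at h1
  have h2 : wpTors M (rr M v * γ 0 0 + ss M v * γ 1 0) (rr M v * γ 0 1 + ss M v * γ 1 1) τ =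
      Pv M (Matrix.vecMul v (red M γ).1) τ := by
    unfold Pv
    refine (wpTors_congr hM (hP.mul γ) ?_ ?_ τ).symm
    · rw [← ZMod.intCast_eq_intCast_iff_dvd_sub]
      push_cast
      rw [cast_rr, cast_rr, cast_ss, vecMul_zero]
    · rw [← ZMod.intCast_eq_intCast_iff_dvd_sub]
      push_cast
      rw [cast_ss, cast_rr, cast_ss, vecMul_one]
  rw [← h2, ← h1]
  have e2 : denom (γ : GL (Fin 2) ℝ) τ ^ (2 : ℤ) * denom (γ : GL (Fin 2) ℝ) τ ^ (-(2 : ℤ)) = 1 := by
    rw [← zpow_add₀ hd]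
    norm_num
  unfold Pv
  calc wpTors M (rr M v) (ss M v) (γ • τ)
      = (denom (γ : GL (Fin 2) ℝ) τ ^ (2 : ℤ) * denom (γ : GL (Fin 2) ℝ) τ ^ (-(2 : ℤ))) *
          wpTors M (rr M v) (ss M v) (γ • τ) := by rw [e2, one_mul]
    _ = denom (γ : GL (Fin 2) ℝ) τ ^ (2 : ℤ) *
          (wpTors M (rr M v) (ss M v) (γ • τ) * denom (γ : GL (Fin 2) ℝ) τ ^ (-(2 : ℤ))) := by
        ring

theorem heckeDiag_smul_eq (τ : ℍ) : heckeDiagMatrix M • τ = scaleH M (NeZero.ne M) τ :=
  UpperHalfPlane.ext (by rw [coe_heckeDiagMatrix_smul (NeZero.ne M)]; rfl)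

/-- `τ ↦ wpTors M r s (M τ)` is a holomorphic function of `q` -/
theorem isQ_dil_wpTors {r s : ℤ} (h : Prim M r s) : IsQ (dil M (wpTors M r s)) := by
  have hM : M ≠ 0 := NeZero.ne M
  have e : dil M (wpTors M r s) = fun τ : ℍ => wpTors M r s (scaleH M hM τ) := by
    funext τ
    show wpTors M r s (heckeDiagMatrix M • τ) = _
    rw [heckeDiag_smul_eq]
  have hsum : ∀ τ : ℍ, HasSum (fun n : ℕ => wpCoeff M r s n • 𝕢 1 (τ : ℂ) ^ n)
      (dil M (wpTors M r s) τ) := by
    intro τ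
    rw [e]
    exact hasSum_wpTors_scale hM h τ
  refine ⟨periodic_of_vadd ?_, ?_, isBoundedAtImInfty_of_hasSum_qExpansion one_pos hsum⟩
  · intro τ
    have h1 := hsum ((1 : ℝ) +ᵥ τ)
    rw [qParam_vadd] at h1
    exact h1.unique (hsum τ)
  · rw [e]
    exact mdiff_scale hM (mdiff_wpTors hM h)

theorem qExpansion_dil_wpTors {r s : ℤ} (h : Prim M r s) :
    qExpansion 1 (dil M (wpTors M r s)) = PowerSeries.mk (wpCoeff M r s) := by
  have hM : M ≠ 0 := NeZero.ne M
  refine (isQ_dil_wpTors M h).qExpansion_eq_mk ?_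
  intro τ
  have e : dil M (wpTors M r s) τ = wpTors M r s (scaleH M hM τ) := by
    show wpTors M r s (heckeDiagMatrix M • τ) = _
    rw [heckeDiag_smul_eq]
  rw [e]
  exact hasSum_wpTors_scale hM h τ

end family

/-! ### The formal side at `ζ = e(1/M)` -/

section formal

variable (M : ℕ) [NeZero M]

theorem zetaN_one_pow (N : ℕ) (k : ℕ) : zetaN N 1 ^ k = zetaN N (k : ℤ) := by
  unfold zetaN
  rw [ee_pow]
  congr 1
  push_cast
  ring

theorem zetaN_one_pow_self (N : ℕ) [NeZero N] : zetaN N 1 ^ N = 1 := by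
  rw [zetaN_one_pow]
  unfold zetaN
  have hN : (N : ℂ) ≠ 0 := Nat.cast_ne_zero.mpr (NeZero.ne N)
  have e : (((N : ℕ) : ℤ) : ℂ) / (N : ℂ) = 1 := by
    push_cast
    exact div_self hN
  rw [e, ee_one]

omit [NeZero M] in
theorem zetaC_eq : zetaC M = zetaN M 1 := by
  unfold zetaC zetaN ee
  congr 1
  push_cast
  ring

theorem zetaC_pow_self : zetaC M ^ M = 1 := by
  rw [zetaC_eq, zetaN_one_pow_self]

omit [NeZero M] in
theorem zpw_zetaC (a : ZMod M) : zpw M (zetaC M) a = zetaN M (((a.val : ℕ) : ℤ)) := by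
  unfold zpw
  rw [zetaC_eq, zetaN_one_pow]

theorem zpw_zetaC_nsmul (k : ℕ) (a : ZMod M) :
    zpw M (zetaC M) (k • a) = zetaN M (((a.val : ℕ) : ℤ)) ^ k := by
  rw [zpw_nsmul (zetaC_pow_self M), zpw_zetaC]

theorem zpw_zetaC_neg_nsmul (k : ℕ) (a : ZMod M) :
    zpw M (zetaC M) (-(k • a)) = (zetaN M (((a.val : ℕ) : ℤ)))⁻¹ ^ k := by
  rw [zpw_neg (zetaC_pow_self M), zpw_zetaC_nsmul, inv_pow]

theorem dvd_rr_iff (v : Vec M) : ((M : ℤ) ∣ rr M v) ↔ v 0 = 0 := by
  rw [← ZMod.intCast_zmod_eq_zero_iff_dvd, cast_rr]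

/-- the power series part of `f_v` at `ζ = e(1/M)` is the expansion of the division value -/
theorem wpser_zetaC (v : Vec M) :
    wpser M (zetaC M) v = PowerSeries.mk (wpCoeff M (rr M v) (ss M v)) := by
  ext n
  rw [PowerSeries.coeff_mk]
  unfold wpser
  have h12 : (12 : PowerSeries ℂ) = PowerSeries.C (12 : ℂ) := (map_ofNat PowerSeries.C 12).symm
  rw [map_add, PowerSeries.coeff_one, h12, PowerSeries.coeff_C_mul]
  unfold wpCoeff
  rcases Nat.eq_zero_or_pos n with h0 | h0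
  · subst h0
    rw [coeff_Xser_zero, if_pos rfl, if_pos rfl]
    unfold x0
    by_cases hv0 : v 0 = 0
    · rw [if_pos hv0, if_pos ((dvd_rr_iff M v).mpr hv0), zpw_zetaC]
      rfl
    · rw [if_neg hv0, if_neg (fun h => hv0 ((dvd_rr_iff M v).mp h)), mul_zero, zero_add]
  · rw [coeff_Xser_of_ne_zero _ _ _ (by omega), if_neg (by omega), if_neg (by omega), add_zero]
    unfold xcoef
    congr 1
    refine Finset.sum_congr rfl ?_
    intro d _
    unfold xterm
    rw [cast_rr, zpw_zetaC_nsmul, zpw_zetaC_neg_nsmul]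
    rfl

end formal

/-! ### The input -/

/-- **brick W for the full family**: helper12's `WpData` holds for the division values -/
theorem wpData (M : ℕ) [NeZero M] : WpData M (Pv M) where
  hol v hv := mdiff_wpTors (NeZero.ne M) (prim_of_ne_zero M hv)
  smul v hv γ τ := Pv_smul M hv γ τ
  bdd v hv := isBoundedAtImInfty_wpTors (NeZero.ne M) (prim_of_ne_zero M hv)
  isQ v hv := isQ_dil_wpTors M (prim_of_ne_zero M hv)
  qexp v hv := by
    rw [wpser_zetaC]
    exact qExpansion_dil_wpTors M (prim_of_ne_zero M hv)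

/-- **the analytic input of `FF_M` is a theorem** -/
theorem input (M : ℕ) [NeZero M] {K : Type*} [Field K] (ι : K →+* ℂ) (ζ : K)
    (hζ : ι ζ = zetaC M) : Galois.Input M ι ζ :=
  ⟨hζ, ⟨Pv M, wpData M⟩, wRep M⟩

end Fermat.Agent.S48.B.Igusa.Full.Analytic.WpInput
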